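import Mathlib.RingTheory.Polynomial.Resultant.Basic
import Fermat.Agent.Erdos.SchurGalois.Basic
import Fermat.Agent.SchurIrreducible.Main

/-!
# The monic Laguerre polynomials

`ℓ_n = ∑ (-1) ^ (n + j) (n choose j) (n! / j!) X ^ j` satisfy `X ℓ_n' = n ℓ_n + n² ℓ_(n-1)` and
`ℓ_(n+2) = (X - (2 n + 3)) ℓ_(n+1) - (n + 1)² ℓ_n`; so the resultants of neighbours are squares up
to sign.
-/

set_option autoImplicit false

noncomputable section

open Finset Polynomial
open scoped Nat

namespace FA.LaguerreGalois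

/-- The absolute value of the coefficient. -/
def lagT (n j : ℕ) : ℕ := n.choose j * n.descFactorial (n - j)

/-- The monic Laguerre polynomial. -/
def lagPoly (n : ℕ) : ℤ[X] := SchurIrreducible.weighted (fun j => (-1) ^ (n + j) * n.choose j) n

/-- The Laguerre polynomial. -/
def lagRat (n : ℕ) : ℚ[X] :=
  ∑ j ∈ range (n + 1), C ((-1) ^ j * (n.choose j : ℚ) / (j ! : ℚ)) * X ^ j

theorem coeff_lagPoly (n j : ℕ) :
    (lagPoly n).coeff j = (-1) ^ (n + j) * (lagT n j : ℤ) := by
  rw [lagPoly, SchurIrreducible.coeff_weighted, lagT]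
  split_ifs with h
  · push_cast; ring
  · rw [Nat.choose_eq_zero_of_lt (not_le.1 h)]
    simp

theorem monic_lagPoly (n : ℕ) : (lagPoly n).Monic :=
  SchurIrreducible.monic_weighted (by simp [← two_mul, pow_mul])

theorem natDegree_lagPoly (n : ℕ) : (lagPoly n).natDegree = n :=
  SchurIrreducible.natDegree_weighted (by simp [← two_mul, pow_mul])

theorem lagT_succ_left (n j : ℕ) :
    ((n : ℤ) + 1 - j) * lagT (n + 1) j = ((n : ℤ) + 1) ^ 2 * lagT n j := by
  rcases Nat.lt_or_ge n j with h | h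
  · rcases Nat.lt_or_ge (n + 1) j with h' | h'
    · simp [lagT, Nat.choose_eq_zero_of_lt h, Nat.choose_eq_zero_of_lt h']
    · obtain rfl : j = n + 1 := by omega
      simp [lagT]
  · have h1 : ((n.choose j * (n + 1) : ℕ) : ℤ) = (((n + 1).choose j * (n + 1 - j) : ℕ) : ℤ) :=
      congrArg _ (Nat.choose_mul_succ_eq n j)
    rw [lagT, lagT, show n + 1 - j = (n - j) + 1 by omega, Nat.succ_descFactorial_succ]
    push_cast [Nat.cast_sub (show j ≤ n + 1 by omega)] at h1 ⊢
    linear_combination -((n : ℤ) + 1) * (n.descFactorial (n - j) : ℤ) * h1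

theorem lagT_succ_succ (n j : ℕ) :
    ((j : ℤ) + 1) ^ 2 * lagT (n + 1) (j + 1) = ((n : ℤ) + 1) ^ 2 * lagT n j := by
  rcases Nat.lt_or_ge n j with h | h
  · simp [lagT, Nat.choose_eq_zero_of_lt h, Nat.choose_eq_zero_of_lt (Nat.succ_lt_succ h)]
  · have h1 : (((n + 1) * n.choose j : ℕ) : ℤ) = (((n + 1).choose (j + 1) * (j + 1) : ℕ) : ℤ) :=
      congrArg _ (Nat.add_one_mul_choose_eq n j)
    have h2 := Nat.descFactorial_succ (n + 1) (n - j)
    rw [Nat.succ_descFactorial_succ, show n + 1 - (n - j) = j + 1 by omega] at h2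
    replace h2 := congrArg (fun x : ℕ => (x : ℤ)) h2
    rw [lagT, lagT, show n + 1 - (j + 1) = n - j by omega]
    push_cast at h1 h2 ⊢
    linear_combination -((j : ℤ) + 1) * ((n + 1).descFactorial (n - j) : ℤ) * h1 -
      ((n : ℤ) + 1) * (n.choose j : ℤ) * h2

theorem lagT_zero (n : ℕ) : lagT n 0 = n ! := by
  simp [lagT, Nat.descFactorial_self]

theorem X_mul_derivative_lagPoly (n : ℕ) :
    X * derivative (lagPoly (n + 1)) =
      C ((n : ℤ) + 1) * lagPoly (n + 1) + C (((n : ℤ) + 1) ^ 2) * lagPoly n := by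
  refine Polynomial.ext fun j => ?_
  rw [coeff_add, coeff_C_mul, coeff_C_mul, coeff_lagPoly, coeff_lagPoly]
  have h := lagT_succ_left n j
  rcases j with _ | j
  · rw [coeff_X_mul_zero]
    simp only [Nat.cast_zero, sub_zero, add_zero, pow_succ] at h ⊢
    linear_combination (-1) ^ n * h
  · rw [coeff_X_mul, coeff_derivative, coeff_lagPoly]
    push_cast at h ⊢
    simp only [show n + 1 + (j + 1) = (n + (j + 1)) + 1 by omega, pow_succ] at h ⊢
    linear_combination (-1) ^ (n + (j + 1)) * h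

theorem lagPoly_succ_succ (n : ℕ) : lagPoly (n + 2) =
    C (-((n : ℤ) + 1) ^ 2) * lagPoly n + lagPoly (n + 1) * (X - C (2 * (n : ℤ) + 3)) := by
  refine Polynomial.ext fun j => ?_
  rw [coeff_add, coeff_C_mul, mul_sub, coeff_sub, coeff_mul_C, coeff_lagPoly, coeff_lagPoly,
    coeff_lagPoly]
  rcases j with _ | j
  · rw [coeff_mul_X_zero, lagT_zero, lagT_zero, lagT_zero, Nat.factorial_succ, Nat.factorial_succ]
    simp only [add_zero, pow_succ]
    push_cast
    ring
  · rw [coeff_mul_X, coeff_lagPoly]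
    have h1 := lagT_succ_left n (j + 1)
    have h2 := lagT_succ_succ n j
    have h3 := lagT_succ_left n j
    have h4 := lagT_succ_succ (n + 1) j
    simp only [show n + 2 + (j + 1) = n + j + 1 + 1 + 1 by omega,
      show n + 1 + (j + 1) = n + j + 1 + 1 by omega, show n + 1 + j = n + j + 1 by omega,
      show n + (j + 1) = n + j + 1 by omega, pow_succ]
    push_cast at h1 h4 ⊢
    refine mul_left_cancel₀ (pow_ne_zero 2 (show (j : ℤ) + 1 ≠ 0 by positivity)) ?_
    linear_combination (-1) ^ (n + j) *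
      (-h4 + ((j : ℤ) + 1) ^ 2 * h1 + ((n : ℤ) + 3 + j) * (h2 - h3))

theorem map_lagPoly (n : ℕ) :
    (lagPoly n).map (Int.castRingHom ℚ) = C ((-1) ^ n * (n ! : ℚ)) * lagRat n := by
  rw [lagRat, lagPoly, SchurIrreducible.weighted, Polynomial.map_sum, Finset.mul_sum]
  refine sum_congr rfl fun j hj => ?_
  rw [mem_range] at hj
  rw [Polynomial.map_mul, Polynomial.map_C, Polynomial.map_pow, map_X, ← mul_assoc, ← C_mul]
  have hd := Nat.factorial_mul_descFactorial (show n - j ≤ n from Nat.sub_le n j)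
  rw [show n - (n - j) = j by omega] at hd
  congr 2
  simp only [eq_intCast, Int.cast_mul, Int.cast_pow, Int.cast_neg, Int.cast_one, Int.cast_natCast]
  rw [← hd, pow_add, Nat.cast_mul]
  have : (j ! : ℚ) ≠ 0 := Nat.cast_ne_zero.2 j.factorial_ne_zero
  field_simp

theorem natDegree_lagRat (n : ℕ) : (lagRat n).natDegree = n := by
  have h := congrArg natDegree (map_lagPoly n)
  rwa [(monic_lagPoly n).natDegree_map, natDegree_lagPoly,
    natDegree_C_mul (mul_ne_zero (pow_ne_zero _ (by norm_num))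
      (Nat.cast_ne_zero.2 n.factorial_ne_zero)), eq_comm] at h

theorem lagRat_ne_zero (n : ℕ) : lagRat n ≠ 0 := fun h => by
  have := (map_lagPoly n).trans (by rw [h, mul_zero])
  exact ((monic_lagPoly n).map _).ne_zero this

theorem irreducible_lagRat {n : ℕ} (hn : 1 ≤ n) : Irreducible (lagRat n) :=
  SchurIrreducible.irreducible_laguerre hn

theorem separable_lagRat (n : ℕ) : (lagRat n).Separable := by
  rcases Nat.eq_zero_or_pos n with rfl | hn
  · simp [lagRat]
  · exact (irreducible_lagRat hn).separable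

/-- The resultant of neighbours is `±` a nonzero square. -/
theorem resultant_lagPoly (n : ℕ) : ∃ m : ℤ, m ≠ 0 ∧
    |(lagPoly (n + 1)).resultant (lagPoly n) (n + 1) n| = m ^ 2 := by
  induction n with
  | zero => exact ⟨1, one_ne_zero, by simp [coeff_lagPoly, lagT]⟩
  | succ n ih =>
    obtain ⟨m, hm0, hm⟩ := ih
    refine ⟨((n : ℤ) + 1) ^ (n + 1) * m, mul_ne_zero (pow_ne_zero _ (by positivity)) hm0, ?_⟩
    rw [lagPoly_succ_succ, resultant_add_mul_left _ _ _ _ _ (by
        have := natDegree_X_sub_C_le (2 * (n : ℤ) + 3)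
        omega) (natDegree_lagPoly _).le, resultant_C_mul_left,
      resultant_succ_left_deg _ _ _ _ (by rw [natDegree_lagPoly]; omega),
      resultant_succ_left_deg _ _ _ _ (natDegree_lagPoly _).le, resultant_comm,
      show (lagPoly (n + 1)).coeff (n + 1) = 1 by
        have := (monic_lagPoly (n + 1)).coeff_natDegree
        rwa [natDegree_lagPoly] at this]
    simp only [abs_mul, abs_pow, abs_neg, abs_one, one_pow, one_mul, mul_one, hm]
    rw [show |(n : ℤ) + 1| = (n : ℤ) + 1 from abs_of_nonneg (by positivity), mul_pow, ← pow_mul,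
      ← pow_mul, mul_comm 2]

section Field

variable {L : Type*} [Field L] [Algebra ℚ L]

theorem aeval_lagPoly (n : ℕ) (x : L) :
    aeval x (lagPoly n) = (-1) ^ n * (n ! : L) * aeval x (lagRat n) := by
  rw [← aeval_map_algebraMap ℚ x (lagPoly n), algebraMap_int_eq, map_lagPoly, map_mul, aeval_C,
    map_mul, map_pow, map_neg, map_one, map_natCast]

theorem mem_rootSet_lagRat {n : ℕ} {x : L} :
    x ∈ (lagRat n).rootSet L ↔ aeval x (lagPoly n) = 0 := by
  have : CharZero L := algebraRat.charZero L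
  rw [mem_rootSet_of_ne (lagRat_ne_zero n), aeval_lagPoly,
    mul_eq_zero_iff_left (mul_ne_zero (pow_ne_zero _ (neg_ne_zero.2 one_ne_zero))
      (Nat.cast_ne_zero.2 (Nat.factorial_ne_zero n)))]

end Field

variable (E : Type*) [Field E] [Algebra ℚ E]

theorem card_rootSet_lagRat {n : ℕ} [h : Fact ((lagRat n).map (algebraMap ℚ E)).Splits] :
    Fintype.card ((lagRat n).rootSet E) = n := by
  rw [card_rootSet_eq_natDegree (separable_lagRat n) h.out, natDegree_lagRat]

theorem isPretransitive_range {n : ℕ} (hn : 1 ≤ n)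
    [Fact ((lagRat n).map (algebraMap ℚ E)).Splits] :
    MulAction.IsPretransitive (Gal.galActionHom (lagRat n) E).range ((lagRat n).rootSet E) := by
  refine ⟨fun x y => ?_⟩
  obtain ⟨g, hg⟩ := (Gal.galAction_isPretransitive (lagRat n) E
    (irreducible_lagRat hn)).exists_smul_eq x y
  exact ⟨⟨_, g, rfl⟩, hg⟩

theorem card_range {n : ℕ} [Fact ((lagRat n).map (algebraMap ℚ E)).Splits] :
    Nat.card (Gal.galActionHom (lagRat n) E).range = Nat.card (lagRat n).Gal :=
  (Nat.card_congr (MonoidHom.ofInjective (Gal.galActionHom_injective _ E)).toEquiv).symm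

end FA.LaguerreGalois

end
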