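import Fermat.Agent.LaguerreGalois.Generic
import Fermat.Agent.LaguerreGalois.Polynomial

/-!
# The discriminant of a Laguerre polynomial

`D = ± n ^ (2 n) R / n!`, `R = ± m²` the resultant with `ℓ_(n-1)`; by Bertrand `n!`, so `D`, is no
square for `n ≥ 2`.
-/

set_option autoImplicit false

noncomputable section

namespace FA.LaguerreGalois

open Finset Nat Polynomial Matrix SchurExp

/-- The discriminant, for degree `m + 1`. -/
def lagDisc (m : ℕ) : ℚ :=
  (-1) ^ ((m + 1) * m / 2) * (((m : ℚ) + 1) ^ (2 * (m + 1)) *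
    ((lagPoly (m + 1)).resultant (lagPoly m) (m + 1) m : ℚ)) / ((m + 1)! : ℚ)

theorem det_sq_lagRoots {L : Type*} [Field L] [Algebra ℚ L] {m : ℕ}
    [Fact ((lagRat (m + 1)).map (algebraMap ℚ L)).Splits]
    (e : Fin (m + 1) ≃ (lagRat (m + 1)).rootSet L) :
    (vandermonde fun i => (e i : L)).det ^ 2 = algebraMap ℚ L (lagDisc m) := by
  classical
  have : CharZero L := algebraRat.charZero L
  set P := (lagPoly (m + 1)).map (Int.castRingHom L) with hP
  set g := (lagPoly m).map (Int.castRingHom L) with hg
  set v := fun i => (e i : L) with hv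
  have hv0 : ∀ i, eval (v i) P = 0 := fun i => by
    rw [hP, eval_map, ← RingHom.ext_int (algebraMap ℤ L) (Int.castRingHom L), ← aeval_def]
    exact mem_rootSet_lagRat.1 (e i).2
  have hnod : P = Lagrange.nodal Finset.univ v := by
    have hsub : (Finset.univ.image v).val ≤ P.roots :=
      (Multiset.le_iff_subset (Finset.univ.image v).nodup).2 fun x hx => by
        obtain ⟨i, -, rfl⟩ := Finset.mem_image.1 (Finset.mem_def.2 hx)
        exact (mem_roots ((monic_lagPoly _).map _).ne_zero).2 (hv0 i)
    have hinj : Function.Injective v := fun i j hij => e.injective (Subtype.ext hij)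
    have hcard : (Finset.univ.image v).val.card = P.natDegree := by
      rw [Finset.card_val, Finset.card_image_of_injective _ hinj, Finset.card_univ,
        Fintype.card_fin, (monic_lagPoly _).natDegree_map, natDegree_lagPoly]
    have heq : (Finset.univ.image v).val = P.roots :=
      Multiset.eq_of_le_of_card_le hsub ((card_roots' P).trans hcard.ge)
    have := prod_multiset_X_sub_C_of_monic_of_roots_card_eq ((monic_lagPoly _).map _)
      (by rw [← heq, hcard])
    refine this.symm.trans ?_
    change (Multiset.map _ P.roots).prod = _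
    rw [← heq, Lagrange.nodal_eq, Finset.image_val_of_injOn hinj.injOn, Multiset.map_map]
    rfl
  have hder : ∀ i, v i * ∏ j ∈ Finset.univ.erase i, (v i - v j) =
      ((m : L) + 1) ^ 2 * eval (v i) g := fun i => by
    rw [← Lagrange.eval_nodal, ← Lagrange.eval_nodal_derivative_eval_node_eq (Finset.mem_univ i),
      ← hnod]
    have := congrArg (fun u => eval (v i) (u.map (Int.castRingHom L))) (X_mul_derivative_lagPoly m)
    simp only [Polynomial.map_mul, Polynomial.map_add, map_X, Polynomial.map_C, ← derivative_map,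
      ← hP, ← hg, eval_mul, eval_add, eval_X, eval_C, hv0, mul_zero, zero_add] at this
    rw [this]
    simp
  have hprod : ∏ i, v i = ((m + 1)! : L) := by
    have := congrArg (eval (0 : L)) hnod
    rw [← coeff_zero_eq_eval_zero, hP, coeff_map, coeff_lagPoly, lagT_zero,
      Lagrange.eval_nodal] at this
    simp only [zero_sub, Finset.prod_neg, Finset.card_univ, Fintype.card_fin, add_zero, map_mul,
      map_pow, map_neg, map_one, map_natCast] at this
    exact mul_left_cancel₀ (pow_ne_zero _ (neg_ne_zero.2 one_ne_zero)) this.symm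
  have hres : ∏ i, eval (v i) g =
      (((lagPoly (m + 1)).resultant (lagPoly m) (m + 1) m : ℤ) : L) := by
    rw [← eq_intCast (Int.castRingHom L), ← resultant_map_map, ← hP, ← hg, hnod,
      Lagrange.nodal_eq]
    have hd : (∏ i, (X - C (v i))).natDegree = m + 1 := by
      rw [natDegree_prod_of_monic _ _ fun i _ => monic_X_sub_C _]
      simp
    have hgm : g.natDegree ≤ m := by rw [hg, (monic_lagPoly _).natDegree_map, natDegree_lagPoly]
    conv_rhs => arg 3; rw [← hd]
    rw [resultant_prod_left _ _ _ _ (by simp [(monic_X_sub_C _).leadingCoeff]) hgm]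
    simp [resultant_X_sub_C_left _ _ _ hgm]
  have hfac : ((m + 1)! : L) ≠ 0 := Nat.cast_ne_zero.2 (factorial_ne_zero _)
  rw [det_vandermonde_sq, lagDisc, map_div₀, map_mul, map_mul, map_pow, map_neg, map_one, map_pow,
    map_add, map_one, map_natCast, map_intCast, map_natCast, Nat.add_sub_cancel, mul_div_assoc]
  congr 1
  rw [eq_div_iff hfac, ← hprod, ← Finset.prod_mul_distrib,
    Finset.prod_congr rfl fun i _ => (mul_comm _ _).trans (hder i), Finset.prod_mul_distrib, hres,
    Finset.prod_const, Finset.card_univ, Fintype.card_fin, ← pow_mul]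

theorem lagDisc_ne_zero (m : ℕ) : lagDisc m ≠ 0 := by
  obtain ⟨r, hr0, hr⟩ := resultant_lagPoly m
  refine div_ne_zero (mul_ne_zero (pow_ne_zero _ (by norm_num)) (mul_ne_zero
    (pow_ne_zero _ (Nat.cast_add_one_ne_zero m)) (Int.cast_ne_zero.2 fun h => ?_)))
    (Nat.cast_ne_zero.2 (factorial_ne_zero _))
  rw [h, abs_zero, eq_comm, sq_eq_zero_iff] at hr
  exact hr0 hr

/-- For `n ≥ 2` the discriminant is no square. -/
theorem not_isSquare_lagDisc {m : ℕ} (hm : 1 ≤ m) : ¬IsSquare (lagDisc m) := by
  rintro ⟨r, hr⟩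
  obtain ⟨s, hs0, hs⟩ := resultant_lagPoly m
  have habs := congrArg abs hr
  rw [lagDisc, abs_div, abs_mul, abs_mul, abs_pow, abs_pow, abs_neg, abs_one, one_pow, one_mul,
    abs_mul_self, ← Int.cast_abs, hs, Nat.abs_cast] at habs
  push_cast at habs
  rw [abs_of_nonneg (by positivity : (0 : ℚ) ≤ (m : ℚ) + 1),
    div_eq_iff (Nat.cast_ne_zero.2 (factorial_ne_zero _))] at habs
  have hsq : IsSquare (((m + 1)! : ℕ) : ℚ) := by
    have hr0 : r ≠ 0 := fun h => lagDisc_ne_zero m (by rw [hr, h, mul_zero])
    refine ⟨((m : ℚ) + 1) ^ (m + 1) * (s : ℚ) / r, ?_⟩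
    field_simp
    linear_combination -habs
  rw [Rat.isSquare_natCast_iff] at hsq
  obtain ⟨t, ht⟩ := hsq
  obtain ⟨p, hp, hp1, hp2⟩ := Nat.exists_prime_lt_and_le_two_mul ((m + 1) / 2) (by omega)
  have := Fact.mk hp
  have hv : padicValNat p (m + 1)! = 1 := padicValNat_factorial_eq_one (by omega) (by omega)
  have ht0 : t ≠ 0 := fun h => factorial_ne_zero _ (by rw [ht, h, mul_zero])
  rw [ht, padicValNat.mul ht0 ht0] at hv
  omega

end FA.LaguerreGalois

end
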