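import Fermat.Agent.Erdos.SchurGalois.Hensel
import Fermat.Agent.Erdos.SchurGalois.Discriminant

/-!
# Even groups and small supports, for any polynomial

The criteria of `Erdos/SchurGalois` for an arbitrary polynomial: the group of the roots is even iff
the discriminant is a square, and roots modulo a prime give elements of small support.
-/

set_option autoImplicit false

noncomputable section

namespace FA.LaguerreGalois

open Finset Nat Polynomial Matrix SchurExp

local notation "Qb" => AlgebraicClosure ℚ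

/-- The Galois group consists of even permutations exactly if the discriminant is a square. -/
theorem range_le_alternatingGroup_iff_isSquare (E : Type*) [Field E] [Algebra ℚ E] [DecidableEq E]
    {f : ℚ[X]} {n : ℕ} {D : ℚ} [Fact (f.map (algebraMap ℚ E)).Splits] (hD0 : D ≠ 0)
    (hcard : ∀ [Fact (f.map (algebraMap ℚ (AlgebraicClosure ℚ))).Splits],
      Fintype.card (f.rootSet (AlgebraicClosure ℚ)) = n)
    (hdet : ∀ [Fact (f.map (algebraMap ℚ (AlgebraicClosure ℚ))).Splits]
      (e : Fin n ≃ f.rootSet (AlgebraicClosure ℚ)),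
      (vandermonde fun i => (e i : AlgebraicClosure ℚ)).det ^ 2 =
        algebraMap ℚ (AlgebraicClosure ℚ) D) :
    (Gal.galActionHom f E).range ≤ alternatingGroup (f.rootSet E)
      ↔ IsSquare (D) := by
  classical
  have halg : Algebra.IsAlgebraic ℚ Qb := AlgebraicClosure.isAlgebraic ℚ
  have : IsAlgClosure ℚ Qb := ⟨inferInstance, halg⟩
  have : Normal ℚ Qb := IsAlgClosure.normal ℚ Qb
  have : IsGalois ℚ Qb := isGalois_iff.mpr ⟨inferInstance, inferInstance⟩
  have : Fact (f.map (algebraMap ℚ Qb)).Splits := ⟨IsAlgClosed.splits _⟩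
  let e : Fin n ≃ f.rootSet Qb :=
    (Fintype.equivFinOfCardEq hcard).symm
  set Δ := (vandermonde fun i => (e i : Qb)).det with hΔ
  have hsq : Δ ^ 2 = algebraMap ℚ Qb (D) := hdet e
  have hΔ0 : Δ ≠ 0 := fun h => by
    rw [h, zero_pow two_ne_zero, eq_comm, _root_.map_eq_zero] at hsq
    exact hD0 hsq
  have hact : ∀ σ : Qb ≃ₐ[ℚ] Qb, σ Δ =
      ((Equiv.Perm.sign (Gal.galActionHom f Qb (Gal.restrict f Qb σ)) : ℤ) : Qb)
        * Δ := fun σ => by
    set π := Gal.galActionHom f Qb (Gal.restrict f Qb σ) with hπ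
    rw [← Equiv.Perm.sign_permCongr e.symm π, ← det_permute, hΔ]
    change σ.toAlgHom.toRingHom _ = _
    rw [RingHom.map_det]
    congr 1
    ext i j
    simp only [RingHom.mapMatrix_apply, Matrix.map_apply, vandermonde_apply, Matrix.submatrix_apply,
      id_eq, map_pow, Equiv.permCongr_apply, Equiv.symm_symm, Equiv.apply_symm_apply]
    congr 1
    exact (Gal.galActionHom_restrict f Qb σ (e i)).symm
  obtain ⟨t, ht⟩ := exists_galActionHom_eq E Qb f
  have hiff : (Gal.galActionHom f E).range ≤ alternatingGroup (f.rootSet E)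
      ↔ ∀ σ : Qb ≃ₐ[ℚ] Qb, σ Δ = Δ := by
    constructor
    · intro h σ
      have := h ⟨Gal.restrict f Qb σ, rfl⟩
      rw [Equiv.Perm.mem_alternatingGroup, ht, Equiv.Perm.sign_permCongr] at this
      rw [hact, this, Units.val_one, Int.cast_one, one_mul]
    · rintro h _ ⟨g, rfl⟩
      obtain ⟨σ, rfl⟩ := Gal.restrict_surjective f Qb g
      rw [Equiv.Perm.mem_alternatingGroup, ht, Equiv.Perm.sign_permCongr]
      have h1 := h σ
      rw [hact, mul_eq_right₀ hΔ0] at h1
      exact Units.val_eq_one.1 (Int.cast_eq_one.1 h1)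
  rw [hiff, ← InfiniteGalois.mem_range_algebraMap_iff_fixed]
  constructor
  · rintro ⟨r, hr⟩
    refine ⟨r, (algebraMap ℚ Qb).injective ?_⟩
    rw [← hsq, ← hr, map_mul, sq]
  · rintro ⟨r, hr⟩
    rw [hr, map_mul, ← sq, sq_eq_sq_iff_eq_or_eq_neg] at hsq
    rcases hsq with h | h
    · exact ⟨r, h.symm⟩
    · exact ⟨-r, by rw [map_neg, h]⟩

/-- The roots in `ℚ_q` are integral. -/
theorem norm_root_le_one_of_monic {q : ℕ} [Fact q.Prime] {g : ℤ[X]} (hg : g.Monic) {y : ℚ_[q]}
    (hy : aeval y g = 0) : ‖y‖ ≤ 1 := by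
  by_contra hcon
  rw [not_le] at hcon
  rw [aeval_eq_sum_range] at hy
  refine sum_ne_zero_of_dominant (i := g.natDegree) (Finset.mem_range.2 (lt_succ_self _)) ?_ ?_ hy
  · rw [hg.coeff_natDegree, one_smul]
    exact pow_ne_zero _ fun e => by rw [e, norm_zero] at hcon; linarith
  intro j hj hjn
  rw [Finset.mem_range] at hj
  rw [hg.coeff_natDegree, one_smul, zsmul_eq_mul, norm_mul, norm_pow, norm_pow]
  exact lt_of_le_of_lt (mul_le_of_le_one_left (by positivity) (Padic.norm_int_le_one _))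
    (pow_lt_pow_right₀ hcon (by omega))

/-- The permutation from an automorphism over `ℚ_q`, moving one to three roots. -/
theorem exists_small_support_of_monic {q n : ℕ} [hq : Fact q.Prime] {f : ℚ[X]} {g₀ : ℤ[X]}
    (hmon : g₀.Monic)
    (hmem : ∀ x : PadicAlgCl q, x ∈ f.rootSet (PadicAlgCl q) ↔ aeval x g₀ = 0)
    (hcard : ∀ [Fact (f.map (algebraMap ℚ (PadicAlgCl q))).Splits],
      Fintype.card (f.rootSet (PadicAlgCl q)) = n)
    (l : Finset (ZMod q))
    (hl : ∀ a : ZMod q, aeval a g₀ = 0 ↔ a ∈ l)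
    (hsimple : ∀ a ∈ l, aeval a g₀.derivative ≠ 0)
    (h3 : n ≤ l.card + 3) (hlt : l.card < n)
    (E : Type*) [Field E] [Algebra ℚ E] [Fact (f.map (algebraMap ℚ E)).Splits]
    [DecidableEq E] :
    ∃ g ∈ (Gal.galActionHom f E).range, g ≠ 1 ∧ g.support.card ≤ 3 := by
  classical
  set L := PadicAlgCl q
  have : Fact (f.map (algebraMap ℚ L)).Splits := ⟨IsAlgClosed.splits _⟩
  have hlift : ∀ a : ZMod q, a ∈ l → ∃ z : ℤ_[q], aeval z g₀ = 0 ∧
      PadicInt.toZMod z = a ∧
      ∀ z', aeval z' g₀ = 0 → PadicInt.toZMod z' = a → z' = z := fun a ha => by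
    set a₀ : ℤ_[q] := ((a.val : ℕ) : ℤ_[q]) with ha₀
    have hred : PadicInt.toZMod a₀ = a := by rw [ha₀, map_natCast, ZMod.natCast_zmod_val]
    have h1 : ‖aeval a₀ g₀‖ < 1 := by
      rw [← toZMod_eq_zero_iff, map_aeval_int, hred, hl]
      exact ha
    have h2 : ‖aeval a₀ g₀.derivative‖ = 1 := by
      refine le_antisymm (PadicInt.norm_le_one _) (not_lt.1 fun h => hsimple a ha ?_)
      rwa [← toZMod_eq_zero_iff, map_aeval_int, hred] at h
    obtain ⟨z, hz, hza, -, huniq⟩ :=
      hensels_lemma (F := g₀) (a := a₀) (by rw [h2, one_pow]; exact h1)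
    rw [h2] at hza huniq
    refine ⟨z, hz, ?_, fun z' hz' hza' => huniq z' hz' ?_⟩
    · rw [← sub_eq_zero, ← hred, ← map_sub, toZMod_eq_zero_iff]
      exact hza
    · rw [← toZMod_eq_zero_iff, map_sub, hza', hred, sub_self]
  choose z hz hzr hzu using hlift
  -- the roots from `ℚ_q`, read in `L`
  let ι : ℤ_[q] →+* L := (algebraMap ℚ_[q] L).comp PadicInt.Coe.ringHom
  let lift : {a // a ∈ l} → f.rootSet L := fun a =>
    ⟨ι (z a a.2), (hmem _).2 ((map_aeval_int ι _ _).symm.trans (by rw [hz, map_zero]))⟩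
  have hinj : Function.Injective lift := fun a b hab => by
    have := congrArg Subtype.val hab
    have e : z a a.2 = z b b.2 := Subtype.ext ((algebraMap ℚ_[q] L).injective this)
    exact Subtype.ext (by rw [← hzr a a.2, e, hzr b b.2])
  obtain ⟨x, hx⟩ : ∃ x : f.rootSet L, x ∉ Set.range lift := by
    by_contra! hall
    have := Fintype.card_le_of_surjective lift hall
    rw [hcard, Fintype.card_coe] at this
    omega
  have hxK : (x : L) ∉ Set.range (algebraMap ℚ_[q] L) := by
    rintro ⟨y, hy⟩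
    have hy0 : aeval y g₀ = 0 := (algebraMap ℚ_[q] L).injective (by
      rw [map_aeval_int, hy, map_zero]; exact (hmem _).1 x.2)
    set y' : ℤ_[q] := ⟨y, norm_root_le_one_of_monic hmon hy0⟩ with hy'
    have hy'0 : aeval y' g₀ = 0 := Subtype.ext (by
      have := map_aeval_int PadicInt.Coe.ringHom g₀ y'
      exact this.trans hy0)
    have hmem : PadicInt.toZMod y' ∈ l := by
      rw [← hl, ← map_aeval_int, hy'0, map_zero]
    refine hx ⟨⟨_, hmem⟩, Subtype.ext ?_⟩
    rw [← hy]
    change algebraMap ℚ_[q] L ((z _ hmem : ℤ_[q]) : ℚ_[q]) = algebraMap ℚ_[q] L y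
    rw [← hzu _ hmem y' hy'0 rfl]
  rw [InfiniteGalois.mem_range_algebraMap_iff_fixed, not_forall] at hxK
  obtain ⟨σ, hσ⟩ := hxK
  set g := Gal.galActionHom f L (Gal.restrict f L (σ.restrictScalars ℚ)) with hg
  have hsupp : g.support ⊆ (Finset.univ.map ⟨lift, hinj⟩)ᶜ := fun y hy => by
    rw [Finset.mem_compl, Finset.mem_map]
    rintro ⟨a, -, rfl⟩
    refine Equiv.Perm.mem_support.1 hy (Subtype.ext ?_)
    rw [hg, galActionHom_restrict_apply]
    exact σ.commutes _
  obtain ⟨e, he⟩ := exists_galActionHom_eq E L f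
  refine ⟨e.permCongr g, ⟨_, he _⟩, fun h1 => hσ ?_, ?_⟩
  · have := congrArg (fun t : Equiv.Perm _ => t (e x)) h1
    simp only [Equiv.permCongr_apply, Equiv.symm_apply_apply, Equiv.Perm.one_apply,
      EmbeddingLike.apply_eq_iff_eq] at this
    have h' := congrArg Subtype.val this
    rwa [hg, galActionHom_restrict_apply] at h'
  · have e1 : (e.permCongr g).support ⊆ g.support.map e.toEmbedding := fun y hy => by
      obtain ⟨w, rfl⟩ := e.surjective y
      rw [Equiv.Perm.mem_support, Equiv.permCongr_apply, Equiv.symm_apply_apply] at hy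
      exact Finset.mem_map.2 ⟨w, Equiv.Perm.mem_support.2 fun h => hy (by rw [h]), rfl⟩
    refine (Finset.card_le_card e1).trans ((Finset.card_map _).trans_le
      ((Finset.card_le_card hsupp).trans ?_))
    rw [Finset.card_compl, Finset.card_map, Finset.card_univ, hcard,
      Fintype.card_coe]
    omega

end FA.LaguerreGalois

end
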