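import Fermat.Agent.Erdos.SchurGalois.Local
import Fermat.Agent.LaguerreGalois.Polynomial

/-!
# A root of `p`-adic norm `p ^ (-1 / p)`

For a prime `p` with `n / 2 < p ≤ n` the coefficient `(n choose j) (n! / j!)` is prime to `p`
exactly for `p ≤ j`, so `ℓ_n` has such a root and `p` divides the order of its Galois group.
-/

set_option autoImplicit false

noncomputable section

namespace FA.LaguerreGalois

open Finset Nat Polynomial SchurExp

theorem aeval_lagPoly_eq_sum {A : Type*} [CommRing A] [Algebra ℤ A] (n : ℕ) (x : A) :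
    aeval x (lagPoly n) = ∑ j ∈ range (n + 1), ((-1) ^ (n + j) * (lagT n j : A)) * x ^ j := by
  rw [lagPoly, SchurIrreducible.weighted, map_sum]
  refine sum_congr rfl fun j hj => ?_
  rw [Finset.mem_range] at hj
  simp only [map_mul, map_pow, map_natCast, aeval_X, map_neg, map_one, lagT,
    Nat.cast_mul]
  ring

theorem not_dvd_lagT {p n j : ℕ} (hp : p.Prime) (hn : n < 2 * p) (hj : p ≤ j) (hjn : j ≤ n) :
    ¬p ∣ lagT n j := fun h => by
  rcases hp.dvd_mul.1 h with h | h
  · have := Fact.mk hp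
    have e := congrArg (padicValNat p) (Nat.choose_mul_factorial_mul_factorial hjn)
    rw [padicValNat.mul (Nat.mul_ne_zero (choose_pos hjn).ne' j.factorial_ne_zero)
        (n - j).factorial_ne_zero, padicValNat.mul (choose_pos hjn).ne' j.factorial_ne_zero,
      padicValNat_factorial_eq_one hn (hj.trans hjn),
      padicValNat_factorial_eq_one (show j < 2 * p by omega) hj] at e
    have := one_le_padicValNat_of_dvd (choose_pos hjn).ne' h
    omega
  · exact not_dvd_descFactorial hp hn hj hjn h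

theorem dvd_lagT {p n j : ℕ} (hpn : p ≤ n) (hj : j < p) : p ∣ lagT n j :=
  Dvd.dvd.mul_left (by
    rw [FA.Erdos.descFactorial_eq_prod_Ioc (Nat.sub_le n j)]
    exact dvd_prod_of_mem _ (Finset.mem_Ioc.2 ⟨by omega, hpn⟩)) _

theorem lagT_ne_zero {n j : ℕ} (hj : j ≤ n) : lagT n j ≠ 0 :=
  Nat.mul_ne_zero (choose_pos hj).ne' (by rw [Ne, descFactorial_eq_zero_iff_lt]; omega)

theorem exists_root_norm {p n : ℕ} [hp : Fact p.Prime] (hn : n < 2 * p) (hp' : p ≤ n) :
    ∃ β : PadicAlgCl p, aeval β (lagPoly n) = 0 ∧ ‖β‖ ^ p = (p : ℝ)⁻¹ := by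
  have hp0 : (0 : ℝ) < p := by exact_mod_cast hp.out.pos
  have h1p : (p : ℝ)⁻¹ < 1 := inv_lt_one_of_one_lt₀ (by exact_mod_cast hp.out.one_lt)
  have hd0 : (p : ℤ) ∣ (lagPoly n).coeff 0 := by
    rw [coeff_lagPoly, lagT_zero]
    exact Dvd.dvd.mul_left (Int.natCast_dvd_natCast.2 (hp.out.dvd_factorial.2 hp')) _
  obtain ⟨β, hroot, hβ⟩ := exists_small_root p (monic_lagPoly n)
    (by rw [natDegree_lagPoly]; have := hp.out.pos; omega) hd0
  rw [natDegree_lagPoly] at hβ
  have h0 : aeval β (lagPoly n) = 0 := by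
    rw [aeval_def, show algebraMap ℤ (PadicAlgCl p) = Int.castRingHom (PadicAlgCl p) from
      RingHom.ext_int _ _, ← eval_map]
    exact hroot
  refine ⟨β, h0, ?_⟩
  rw [aeval_lagPoly_eq_sum] at h0
  set r := ‖β‖ with hr
  have hr0 : 0 ≤ r := norm_nonneg β
  have hr1 : r < 1 := lt_of_pow_lt_pow_left₀ n zero_le_one (by rw [one_pow]; linarith)
  have hT : ∀ j, ‖(-1) ^ (n + j) * (lagT n j : PadicAlgCl p) * β ^ j‖
      = ‖(lagT n j : PadicAlgCl p)‖ * r ^ j := fun j => by
    rw [norm_mul, norm_mul, norm_pow, norm_neg, norm_one, one_pow, one_mul, norm_pow]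
  have hlow : ∀ j, j ≤ n → j < p →
      ‖(lagT n j : PadicAlgCl p)‖ ≤ (p : ℝ)⁻¹ := fun j hjn hj => by
    have hz : lagT n j ≠ 0 := lagT_ne_zero hjn
    rw [norm_natCast_eq p hz]
    refine pow_le_of_le_one (inv_nonneg.2 hp0.le) h1p.le ?_
    rw [← Nat.pos_iff_ne_zero]
    exact one_le_padicValNat_of_dvd hz (dvd_lagT hp' hj)
  have hhigh : ∀ j, p ≤ j → j ≤ n → ‖(lagT n j : PadicAlgCl p)‖ = 1 :=
    fun j hj hjn => by
      rw [norm_natCast_eq p (lagT_ne_zero hjn),
        padicValNat.eq_zero_of_not_dvd (not_dvd_lagT hp.out hn hj hjn), pow_zero]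
  have hc0 : ‖(lagT n 0 : PadicAlgCl p)‖ = (p : ℝ)⁻¹ := by
    rw [lagT_zero, norm_natCast_eq p (factorial_ne_zero n),
      padicValNat_factorial_eq_one hn hp', pow_one]
  rcases lt_trichotomy (r ^ p) (p : ℝ)⁻¹ with hlt | heq | hgt
  · refine absurd h0 (sum_ne_zero_of_dominant (i := 0) (Finset.mem_range.2 (by omega)) ?_ ?_)
    · rw [← norm_pos_iff, hT, hc0, pow_zero, mul_one]
      positivity
    intro j hj hj0
    rw [Finset.mem_range] at hj
    rw [hT, hT, hc0, pow_zero, mul_one]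
    rcases Nat.lt_or_ge j p with h | h
    · calc _ ≤ (p : ℝ)⁻¹ * r ^ j := by gcongr; exact hlow j (by omega) h
        _ < (p : ℝ)⁻¹ * 1 := by
          refine mul_lt_mul_of_pos_left (pow_lt_one₀ hr0 hr1 hj0) (by positivity)
        _ = _ := mul_one _
    · rw [hhigh j h (by omega), one_mul]
      exact lt_of_le_of_lt (pow_le_pow_of_le_one hr0 hr1.le h) hlt
  · exact heq
  · have hrp : 0 < r := by
      rcases hr0.lt_or_eq with h | h
      · exact h
      · rw [← h, zero_pow hp.out.ne_zero] at hgt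
        exact absurd hgt (not_lt.2 (by positivity))
    refine absurd h0 (sum_ne_zero_of_dominant (i := p) (Finset.mem_range.2 (by omega)) ?_ ?_)
    · rw [← norm_pos_iff, hT, hhigh p le_rfl hp', one_mul]
      positivity
    intro j hj hjp
    rw [Finset.mem_range] at hj
    rw [hT, hT, hhigh p le_rfl hp', one_mul]
    rcases Nat.lt_or_ge j p with h | h
    · calc _ ≤ (p : ℝ)⁻¹ * 1 :=
          mul_le_mul (hlow j (by omega) h) (pow_le_one₀ hr0 hr1.le) (by positivity) (by positivity)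
        _ < _ := by rwa [mul_one]
    · rw [hhigh j h (by omega), one_mul]
      exact pow_lt_pow_right_of_lt_one₀ hrp hr1 (by omega)

/-- Every prime in `(n / 2, n]` divides the order of the Galois group. -/
theorem prime_dvd_card_gal {p n : ℕ} [hp : Fact p.Prime] (hn : n < 2 * p) (hp' : p ≤ n) :
    p ∣ Nat.card (lagRat n).Gal := by
  obtain ⟨β, h0, hβ⟩ := exists_root_norm hn hp'
  have : Fact ((lagRat n).map (algebraMap ℚ (PadicAlgCl p))).Splits := ⟨IsAlgClosed.splits _⟩
  rw [← card_range (E := PadicAlgCl p)]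
  refine dvd_trans ?_ (natDegree_minpoly_dvd_card (PadicAlgCl p) ℚ_[p] (lagRat n)
    ⟨β, mem_rootSet_lagRat.2 h0⟩)
  set d := (minpoly ℚ_[p] β).natDegree with hd
  have hint : IsIntegral ℚ_[p] β := Normal.isIntegral inferInstance _
  have hd0 : 0 < d := minpoly.natDegree_pos hint
  have hβ0 : β ≠ 0 := fun e => by
    rw [e, norm_zero, zero_pow hp.out.ne_zero] at hβ
    exact absurd hβ.symm (inv_ne_zero (by exact_mod_cast hp.out.ne_zero))
  have hc : (minpoly ℚ_[p] β).coeff 0 ≠ 0 := minpoly.coeff_zero_ne_zero hint hβ0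
  have hnorm : ‖β‖ ^ d = ‖(minpoly ℚ_[p] β).coeff 0‖ := by
    rw [← PadicAlgCl.spectralNorm_eq, spectralNorm.spectralNorm_eq_norm_coeff_zero_rpow,
      ← Real.rpow_natCast,
      ← Real.rpow_mul (norm_nonneg _), one_div, inv_mul_cancel₀ (by positivity), Real.rpow_one]
  rw [Padic.norm_eq_zpow_neg_valuation hc] at hnorm
  have h1 := congrArg (fun t => t ^ p) hnorm
  simp only [← pow_mul] at h1
  rw [mul_comm, pow_mul, hβ, inv_pow, ← zpow_natCast (p : ℝ) d, ← zpow_neg,
    ← zpow_natCast ((p : ℝ) ^ (-_ : ℤ)) p, ← zpow_mul] at h1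
  have h2 := (zpow_right_injective₀ (a := (p : ℝ)) (by exact_mod_cast hp.out.pos)
    (by exact_mod_cast hp.out.one_lt.ne')) h1
  exact Int.natCast_dvd_natCast.1 ⟨((minpoly ℚ_[p] β).coeff 0).valuation, by linarith⟩

end FA.LaguerreGalois

end
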