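import Fermat.Agent.Erdos.SchurGalois.Jordan
import Fermat.Agent.Erdos.SchurGalois.PrimeGap
import Fermat.Agent.LaguerreGalois.Local
import Fermat.Agent.LaguerreGalois.Discriminant

/-!
# The Galois group of a Laguerre polynomial

As for the truncated exponentials it holds a `p`-cycle for the primes `p` in `(n / 2, n]`, and for
`n = 6, 7` the roots modulo `109` and `419` give an element moving at most three roots. So it holds
`Aₙ`; the discriminant is no square.
-/

set_option autoImplicit false

noncomputable section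

namespace FA.LaguerreGalois

open Finset Nat Polynomial Equiv.Perm SchurExp

variable (E : Type*) [Field E] [Algebra ℚ E] [DecidableEq E] (n : ℕ)
  [Fact ((lagRat n).map (algebraMap ℚ E)).Splits]

/-- The group as permutations of the roots in `E`. -/
abbrev lagRange : Subgroup (Equiv.Perm ((lagRat n).rootSet E)) :=
  (Gal.galActionHom (lagRat n) E).range

theorem exists_lagCycle {p : ℕ} [Fact p.Prime] (hn : n < 2 * p) (hp : p ≤ n) :
    ∃ g ∈ lagRange E n, g.IsCycle ∧ g.support.card = p :=
  exists_isCycle_of_dvd_card (by rw [card_rootSet_lagRat]; exact hn)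
    (by rw [card_range]; exact prime_dvd_card_gal hn hp)

theorem isPreprimitive_lagRange {p : ℕ} [hp : Fact p.Prime] (hn : n < 2 * p) (hpn : p ≤ n) :
    MulAction.IsPreprimitive (lagRange E n) ((lagRat n).rootSet E) := by
  obtain ⟨g, hg, hc, hcard⟩ := exists_lagCycle E n hn hpn
  have := isPretransitive_range E (n := n) (by have := hp.out.pos; omega)
  exact isPreprimitive_of_primeCycle hg hc (hcard ▸ hp.out)
    (by rw [card_rootSet_lagRat, hcard]; exact hn)

theorem alternatingGroup_le_of_small {p : ℕ} [hp : Fact p.Prime] (hn : n < 2 * p) (hpn : p ≤ n)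
    (h : ∃ g ∈ lagRange E n, g ≠ 1 ∧ g.support.card ≤ 3) :
    alternatingGroup ((lagRat n).rootSet E) ≤ lagRange E n := by
  obtain ⟨g, hg, hg1, hcard⟩ := h
  have h2 : g.support.card ≠ 1 := card_support_ne_one g
  have h0 : g.support.card ≠ 0 := fun h0 => hg1 (support_eq_empty_iff.1 (card_eq_zero.1 h0))
  have hG := isPreprimitive_lagRange E n hn hpn
  obtain h | h : g.support.card = 2 ∨ g.support.card = 3 := by omega
  · exact (subgroup_eq_top_of_isPreprimitive_of_isSwap_mem hG g (card_support_eq_two.1 h) hg).symm ▸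
      le_top
  · exact alternatingGroup_le_of_isPreprimitive_of_isThreeCycle_mem hG
      (card_support_eq_three_iff.1 h) hg

/-- `ℓ_n (a)` as a sum. -/
def lagSum {q : ℕ} (n : ℕ) (a : ZMod q) : ZMod q :=
  ∑ j ∈ range (n + 1), ((-1) ^ (n + j) * (lagT n j : ZMod q)) * a ^ j

theorem roots_lag_six : ∀ a : ZMod 109,
    (lagSum 6 a = 0 ↔ a ∈ ({33, 54, 60} : Finset (ZMod 109))) ∧
      (a ∈ ({33, 54, 60} : Finset (ZMod 109)) → lagSum 5 a ≠ 0) := by
  unfold lagSum lagT
  decide +kernel

theorem roots_lag_seven : ∀ a : ZMod 419,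
    (lagSum 7 a = 0 ↔ a ∈ ({110, 252, 322, 385} : Finset (ZMod 419))) ∧
      (a ∈ ({110, 252, 322, 385} : Finset (ZMod 419)) → lagSum 6 a ≠ 0) := by
  unfold lagSum lagT
  decide +kernel

variable {E n}

/-- A root modulo `q` of `ℓ_(m+1)` but not of `ℓ_m` is simple, for `q` prime to `m + 1`. -/
theorem exists_small_of_lagRoots {q m : ℕ} [Fact q.Prime]
    [Fact ((lagRat (m + 1)).map (algebraMap ℚ E)).Splits] (hq : ((m : ZMod q) + 1) ≠ 0)
    (l : Finset (ZMod q))
    (h : ∀ a : ZMod q, (lagSum (m + 1) a = 0 ↔ a ∈ l) ∧ (a ∈ l → lagSum m a ≠ 0))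
    (h3 : m + 1 ≤ l.card + 3) (hlt : l.card < m + 1) :
    ∃ g ∈ lagRange E (m + 1), g ≠ 1 ∧ g.support.card ≤ 3 := by
  refine exists_small_support_of_monic (monic_lagPoly (m + 1)) (fun x => mem_rootSet_lagRat)
    (card_rootSet_lagRat _) l (fun a => by rw [aeval_lagPoly_eq_sum]; exact (h a).1)
    (fun a ha hd => ?_) h3 hlt E
  have e := congrArg (aeval a) (X_mul_derivative_lagPoly m)
  simp only [map_mul, map_add, aeval_X, hd, mul_zero, aeval_C, aeval_lagPoly_eq_sum] at e
  rw [show (∑ j ∈ range (m + 1 + 1), ((-1) ^ (m + 1 + j) * (lagT (m + 1) j : ZMod q)) * a ^ j)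
    = 0 from ((h a).1).2 ha, mul_zero, zero_add] at e
  refine (h a).2 ha ((mul_eq_zero.1 e.symm).resolve_left ?_)
  simpa using pow_ne_zero 2 hq

variable (E n)

theorem exists_small_lag_six (hn : n = 6) :
    ∃ g ∈ lagRange E n, g ≠ 1 ∧ g.support.card ≤ 3 := by
  subst hn
  have : Fact (Nat.Prime 109) := ⟨by norm_num⟩
  exact exists_small_of_lagRoots (by decide +kernel +revert) _ roots_lag_six (by decide) (by decide)

theorem exists_small_lag_seven (hn : n = 7) :
    ∃ g ∈ lagRange E n, g ≠ 1 ∧ g.support.card ≤ 3 := by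
  subst hn
  have : Fact (Nat.Prime 419) := ⟨by norm_num⟩
  exact exists_small_of_lagRoots (by decide +kernel +revert) _ roots_lag_seven (by decide)
    (by decide)

/-- The group contains the alternating group. -/
theorem alternatingGroup_le_lagRange : alternatingGroup ((lagRat n).rootSet E) ≤ lagRange E n := by
  have hc := card_rootSet_lagRat E (n := n)
  rcases Nat.lt_or_ge n 3 with h | h
  · intro g hg
    rw [mem_alternatingGroup] at hg
    suffices g = 1 by rw [this]; exact one_mem _
    by_contra hne
    have h0 : g.support.card ≠ 0 := fun h0 => hne (support_eq_empty_iff.1 (card_eq_zero.1 h0))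
    have h1 : g.support.card ≠ 1 := card_support_ne_one g
    have h2 : g.support.card ≤ 2 := (Finset.card_le_univ _).trans (by omega)
    have h3 := card_support_eq_two.1 (show g.support.card = 2 by omega)
    rw [h3.sign_eq] at hg
    exact absurd hg (by decide)
  rcases Nat.lt_or_ge n 8 with h8 | h8
  · rcases Nat.lt_or_ge n 6 with h6 | h6
    · have : Fact (Nat.Prime 3) := ⟨Nat.prime_three⟩
      obtain ⟨g, hg, -, hcard⟩ := exists_lagCycle E n (p := 3) (by omega) h
      exact alternatingGroup_le_of_isPreprimitive_of_isThreeCycle_mem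
        (isPreprimitive_lagRange E n (p := 3) (by omega) h) (card_support_eq_three_iff.1 hcard) hg
    · have : Fact (Nat.Prime 5) := ⟨by norm_num⟩
      refine alternatingGroup_le_of_small E n (p := 5) (by omega) (by omega) ?_
      rcases (show n = 6 ∨ n = 7 by omega) with h | h
      · exact exists_small_lag_six E n h
      · exact exists_small_lag_seven E n h
  · obtain ⟨p, hp, hp1, hp2⟩ := exists_prime_gap (show 4 ≤ n / 2 by omega)
    have := Fact.mk hp
    obtain ⟨g, hg, hcyc, hcard⟩ := exists_lagCycle E n (p := p) (by omega) (by omega)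
    exact alternatingGroup_le_of_primeCycle
      (isPreprimitive_lagRange E n (p := p) (by omega) (by omega))
      hg hcyc (hcard ▸ hp) (by omega)

/-- It is the symmetric group. -/
theorem lagRange_eq_top : lagRange E n = ⊤ := by
  have hA := alternatingGroup_le_lagRange E n
  rcases Nat.lt_or_ge n 2 with h | h
  · have hc := card_rootSet_lagRat E (n := n)
    have : Subsingleton ((lagRat n).rootSet E) := Fintype.card_le_one_iff_subsingleton.1 (by omega)
    exact eq_top_iff.2 fun g _ => by rw [Subsingleton.elim g 1]; exact one_mem _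
  obtain ⟨m, rfl⟩ : ∃ m, n = m + 1 := ⟨n - 1, by omega⟩
  have hiff := range_le_alternatingGroup_iff_isSquare E (lagDisc_ne_zero m)
    (card_rootSet_lagRat _) det_sq_lagRoots
  obtain ⟨s, hs, hsA⟩ := SetLike.not_le_iff_exists.1
    (mt hiff.1 (not_isSquare_lagDisc (by omega)))
  refine eq_top_iff.2 fun g _ => ?_
  rcases Int.units_eq_one_or (Equiv.Perm.sign g) with h1 | h1
  · exact hA (mem_alternatingGroup.2 h1)
  · have hs1 : Equiv.Perm.sign s = -1 :=
      (Int.units_eq_one_or _).resolve_left fun h => hsA (mem_alternatingGroup.2 h)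
    have hm : g * s ∈ alternatingGroup _ := mem_alternatingGroup.2 (by
      rw [map_mul, h1, hs1, Int.units_mul_self])
    have := mul_mem (hA hm) (inv_mem hs)
    rwa [mul_inv_cancel_right] at this

end FA.LaguerreGalois

end
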